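import Fermat.Agent.MahlerArea.Cusp
import Mathlib.Analysis.BoxIntegral.UnitPartition
import Mathlib.MeasureTheory.Measure.Lebesgue.EqHaar

/-!
# Mahler's theorem on the values of binary forms

The lattice points with `|F| ≤ N` are counted by the area of `|F| ≤ 1`: the bounded parts are
Riemann sums and the cusps are negligible, which also makes the area finite.
-/

set_option autoImplicit false

noncomputable section

open Polynomial Finset Filter MeasureTheory Metric
open scoped Topology Pointwise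

namespace FA.MahlerArea

variable {f : ℤ[X]}

/-- The binary form of `f` on the plane. -/
def realForm (f : ℤ[X]) (v : Fin 2 → ℝ) : ℝ :=
  ∑ i ∈ range (f.natDegree + 1), (f.coeff i : ℝ) * v 0 ^ i * v 1 ^ (f.natDegree - i)

theorem realForm_smul (f : ℤ[X]) (t : ℝ) (v : Fin 2 → ℝ) :
    realForm f (t • v) = t ^ f.natDegree * realForm f v := by
  rw [realForm, realForm, mul_sum]
  refine sum_congr rfl fun i hi => ?_
  have : t ^ f.natDegree = t ^ i * t ^ (f.natDegree - i) := by
    rw [← pow_add, Nat.add_sub_cancel' (Nat.lt_succ_iff.1 (mem_range.1 hi))]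
  simp only [Pi.smul_apply, smul_eq_mul, mul_pow, this]
  ring

theorem realForm_intCast (f : ℤ[X]) (x y : ℤ) :
    realForm f ![(x : ℝ), (y : ℝ)] = (Thue.form f x y : ℝ) := by
  simp [realForm, Thue.form]

@[fun_prop]
theorem continuous_realForm (f : ℤ[X]) : Continuous (realForm f) := by
  unfold realForm
  fun_prop

/-- The level sets of a form are null. -/
theorem level_null (hdeg : f.natDegree ≠ 0) (c : ℝ) :
    volume {v : Fin 2 → ℝ | realForm f v = c} = 0 := by
  have hmeas : MeasurableSet {v : Fin 2 → ℝ | realForm f v = c} :=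
    (isClosed_eq (continuous_realForm f) continuous_const).measurableSet
  rw [← ((volume_preserving_finTwoArrow ℝ).symm _).measure_preimage hmeas.nullMeasurableSet,
    Measure.volume_eq_prod, Measure.prod_apply_symm
      (hmeas.preimage (MeasurableEquiv.finTwoArrow (α := ℝ)).symm.measurable)]
  refine lintegral_eq_zero_of_ae_eq_zero (Eventually.of_forall fun y => ?_)
  refine Set.Finite.measure_zero ?_ _
  set n := f.natDegree with hn
  set p : ℝ[X] := (∑ i ∈ range (n + 1), C ((f.coeff i : ℝ) * y ^ (n - i)) * X ^ i) - C c with hp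
  have hp0 : p ≠ 0 := fun h => by
    have := congrArg (fun q => Polynomial.coeff q n) h
    simp only [hp, coeff_sub, finsetSum_coeff, coeff_C_mul, coeff_X_pow, mul_ite, mul_one,
      mul_zero, coeff_C, if_neg hdeg, sub_zero, coeff_zero] at this
    rw [Finset.sum_ite_eq (range (n + 1)) n, if_pos (self_mem_range_succ n), Nat.sub_self,
      pow_zero, mul_one, Int.cast_eq_zero] at this
    exact hdeg (by rw [hn, leadingCoeff_eq_zero.1 this, natDegree_zero])
  refine (p.finite_setOfPred_isRoot hp0).subset fun x hx => ?_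
  show p.IsRoot x
  have hx' : realForm f ![x, y] = c := hx
  simp only [realForm, ← hn, Matrix.cons_val_zero, Matrix.cons_val_one,
    Matrix.cons_val_fin_one] at hx'
  simp only [hp, IsRoot.def, eval_sub, eval_finsetSum, eval_mul, eval_C, eval_pow, eval_X, ← hx']
  rw [sub_eq_zero]
  exact sum_congr rfl fun i _ => by ring

/-- The region cut out by the form in the square of side `2 R`. -/
def region (f : ℤ[X]) (R : ℝ) : Set (Fin 2 → ℝ) :=
  closedBall 0 R ∩ {v | |realForm f v| ≤ 1}

theorem region_frontier_null (hdeg : f.natDegree ≠ 0) (R : ℝ) :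
    volume (frontier (region f R)) = 0 := by
  refine measure_mono_null ((frontier_inter_subset _ _).trans
    (Set.union_subset_union Set.inter_subset_left Set.inter_subset_right)) ?_
  refine measure_union_null ?_ (measure_mono_null
    (frontier_le_subset_eq (continuous_realForm f).abs continuous_const)
    (measure_mono_null (fun v hv => ?_ : _ ⊆ {v | realForm f v = 1} ∪ {v | realForm f v = -1})
      (measure_union_null (level_null hdeg 1) (level_null hdeg (-1)))))
  · rw [frontier_closedBall']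
    exact Measure.addHaar_sphere volume 0 R
  · exact eq_or_eq_neg_of_abs_eq hv

theorem region_shrink {R : ℝ} {x y : ℝ} (hx : 0 < x) (hxy : x ≤ y) :
    x • region f R ⊆ y • region f R := by
  rintro _ ⟨v, ⟨hv, hF⟩, rfl⟩
  refine ⟨(x / y) • v, ⟨?_, ?_⟩, ?_⟩
  · have hy : 0 < y := hx.trans_le hxy
    rw [mem_closedBall_zero_iff] at hv ⊢
    rw [norm_smul, Real.norm_eq_abs, abs_of_pos (div_pos hx hy)]
    exact (mul_le_of_le_one_left (norm_nonneg _) ((div_le_one hy).2 hxy)).trans hv
  · have hy : 0 < y := hx.trans_le hxy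
    show |realForm f ((x / y) • v)| ≤ 1
    rw [realForm_smul, abs_mul, abs_of_pos (pow_pos (div_pos hx hy) _)]
    exact mul_le_one₀ (pow_le_one₀ (div_pos hx hy).le ((div_le_one hy).2 hxy)) (abs_nonneg _) hF
  · show y • (x / y) • v = x • v
    rw [smul_smul, mul_div_cancel₀ _ (hx.trans_le hxy).ne']

/-- The bounded part of the count. -/
def boxCount (f : ℤ[X]) (R T : ℝ) : ℕ :=
  {p : ℤ × ℤ | max |(p.1 : ℝ)| |(p.2 : ℝ)| ≤ R * T ∧
    |(Thue.form f p.1 p.2 : ℝ)| ≤ T ^ f.natDegree}.ncard

theorem boxCount_eq {R T : ℝ} (hR : 0 ≤ R) (hT : 0 < T) :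
    Nat.card ↑(region f R ∩ T⁻¹ •
      (Submodule.span ℤ (Set.range (Pi.basisFun ℝ (Fin 2))) : Set (Fin 2 → ℝ))) =
      boxCount f R T := by
  set φ : ℤ × ℤ → Fin 2 → ℝ := fun p => T⁻¹ • ![(p.1 : ℝ), (p.2 : ℝ)] with hφ
  have hinj : Function.Injective φ := fun p q h => by
    have h' := smul_right_injective (Fin 2 → ℝ) (inv_ne_zero hT.ne') h
    exact Prod.ext (by simpa using congrFun h' 0) (by simpa using congrFun h' 1)
  have hmem : ∀ p : ℤ × ℤ, φ p ∈ region f R ↔ max |(p.1 : ℝ)| |(p.2 : ℝ)| ≤ R * T ∧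
      |(Thue.form f p.1 p.2 : ℝ)| ≤ T ^ f.natDegree := fun p => by
    rw [region, Set.mem_inter_iff, mem_closedBall_zero_iff, hφ, norm_smul, Set.mem_ofPred_eq,
      realForm_smul, realForm_intCast, abs_mul, abs_of_pos (pow_pos (inv_pos.2 hT) _),
      Real.norm_eq_abs, abs_of_pos (inv_pos.2 hT), inv_pow, inv_mul_le_iff₀ hT,
      inv_mul_le_iff₀ (pow_pos hT _), mul_one, pi_norm_le_iff_of_nonneg (by positivity),
      Fin.forall_fin_two, max_le_iff, mul_comm T R]
    simp
  rw [boxCount, ← Set.ncard_image_of_injective _ hinj, ← Nat.card_coe_set_eq]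
  congr 2
  ext v
  constructor
  · rintro ⟨hv, w, hw, rfl⟩
    rw [SetLike.mem_coe, Module.Basis.mem_span_iff_repr_mem ℤ] at hw
    obtain ⟨a, ha⟩ := hw 0
    obtain ⟨b, hb⟩ := hw 1
    have e : φ (a, b) = T⁻¹ • w := by
      rw [hφ]
      ext i
      fin_cases i <;> simp_all
    exact ⟨(a, b), (hmem _).1 (e ▸ hv), e⟩
  · rintro ⟨p, hp, rfl⟩
    refine ⟨(hmem p).2 hp, ![(p.1 : ℝ), (p.2 : ℝ)], ?_, rfl⟩
    rw [SetLike.mem_coe, Module.Basis.mem_span_iff_repr_mem ℤ]
    intro i
    fin_cases i <;> simp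

theorem tendsto_boxCount (hdeg : f.natDegree ≠ 0) {R : ℝ} (hR : 0 ≤ R) :
    Tendsto (fun T : ℝ => (boxCount f R T : ℝ) / T ^ 2) atTop
      (𝓝 (volume.real (region f R))) := by
  have h := tendsto_card_div_pow_atTop_volume' (region f R)
    (isBounded_closedBall.subset Set.inter_subset_left)
    ((isClosed_closedBall.inter (isClosed_le (continuous_realForm f).abs continuous_const))
      |>.measurableSet) (region_frontier_null hdeg R) (fun x y => region_shrink)
  refine Tendsto.congr' ?_ h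
  filter_upwards [eventually_gt_atTop 0] with T hT
  rw [boxCount_eq hR hT, Fintype.card_fin]

/-- All lattice points with small values. -/
def valueCount (f : ℤ[X]) (N : ℝ) : ℕ :=
  {p : ℤ × ℤ | |(Thue.form f p.1 p.2 : ℝ)| ≤ N}.ncard

/-- **Mahler's theorem**: the area is finite and counts the small values. -/
theorem area_and_count (hsep : (f.map (Int.castRingHom ℂ)).Separable)
    (hroot : ∀ r : ℚ, (f.map (Int.castRingHom ℚ)).eval r ≠ 0) (hdeg : 3 ≤ f.natDegree) :
    volume {v : Fin 2 → ℝ | |realForm f v| ≤ 1} < ⊤ ∧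
      Tendsto (fun N : ℝ => (valueCount f N : ℝ) / N ^ ((2 : ℝ) / f.natDegree)) atTop
        (𝓝 (volume.real {v : Fin 2 → ℝ | |realForm f v| ≤ 1})) := by
  classical
  set k := f.natDegree
  set A := {v : Fin 2 → ℝ | |realForm f v| ≤ 1}
  have hfin : ∀ N : ℝ, {p : ℤ × ℤ | |(Thue.form f p.1 p.2 : ℝ)| ≤ N}.Finite := fun N =>
    (Roth.finite_small_values hsep hroot (C := N) (e := 0)
      (by have : (3 : ℝ) ≤ k := Nat.ofNat_le_cast.2 hdeg; linarith) hdeg).subset fun p hp => by
      show _ ≤ N * _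
      rwa [Real.rpow_zero, mul_one]
  set g : ℝ → ℝ := fun T => (valueCount f (T ^ k) : ℝ) / T ^ 2
  have hlow : ∀ R : ℝ, ∀ᶠ T : ℝ in atTop, (boxCount f R T : ℝ) / T ^ 2 ≤ g T := fun R => by
    filter_upwards with T
    refine div_le_div_of_nonneg_right (Nat.cast_le.2 ?_) (sq_nonneg T)
    exact Set.ncard_le_ncard (fun p hp => hp.2) (hfin _)
  have hupp : ∀ ε : ℝ, 0 < ε → ∃ R₁ : ℝ, 1 ≤ R₁ ∧ ∀ R, R₁ ≤ R →
      ∀ᶠ T : ℝ in atTop, g T ≤ (boxCount f R T : ℝ) / T ^ 2 + ε := by
    intro ε hε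
    obtain ⟨R₁, hR₁, h⟩ := cusp_small hsep hroot hdeg hε
    refine ⟨R₁, hR₁, fun R hR => ?_⟩
    filter_upwards [h, eventually_gt_atTop 0] with T hS hT
    rw [div_le_iff₀ (by positivity), add_mul, div_mul_cancel₀ _ (by positivity)]
    set Z := {p : ℤ × ℤ | |(Thue.form f p.1 p.2 : ℝ)| ≤ T ^ k}
    set B := {p : ℤ × ℤ | max |(p.1 : ℝ)| |(p.2 : ℝ)| ≤ R * T ∧
      |(Thue.form f p.1 p.2 : ℝ)| ≤ T ^ k}
    have hZB : (Z \ B).Finite := (hfin _).sdiff
    have hcard : ((Z \ B).ncard : ℝ) ≤ ε * T ^ 2 := by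
      rw [Set.ncard_eq_toFinset_card _ hZB]
      refine hS _ fun p hp => ?_
      obtain ⟨hp1, hp2⟩ := hZB.mem_toFinset.1 hp
      refine ⟨(mul_le_mul_of_nonneg_right hR hT.le).trans_lt ?_, hp1⟩
      exact not_le.1 fun hle => hp2 ⟨hle, hp1⟩
    have hsum : valueCount f (T ^ k) ≤ B.ncard + (Z \ B).ncard :=
      (Set.ncard_le_ncard (fun p hp => (em (p ∈ B)).imp id fun h => ⟨hp, h⟩)
        (((hfin _).subset fun p hp => hp.2).union hZB)).trans (Set.ncard_union_le _ _)
    calc (valueCount f (T ^ k) : ℝ) ≤ (B.ncard : ℝ) + ((Z \ B).ncard : ℝ) := by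
          exact_mod_cast hsum
      _ ≤ _ := add_le_add le_rfl hcard
  -- the areas of the bounded parts
  set s : ℕ → Set (Fin 2 → ℝ) := fun n => region f n
  have hk0 : f.natDegree ≠ 0 := by omega
  have hlim : ∀ n : ℕ, Tendsto (fun T : ℝ => (boxCount f n T : ℝ) / T ^ 2) atTop
      (𝓝 (volume.real (s n))) := fun n => tendsto_boxCount hk0 (Nat.cast_nonneg n)
  have hmono : Monotone s := fun m n hmn =>
    Set.inter_subset_inter_left _ (closedBall_subset_closedBall (Nat.cast_le.2 hmn))
  have hUnion : ⋃ n, s n = A := by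
    refine Set.Subset.antisymm (Set.iUnion_subset fun n => Set.inter_subset_right) fun v hv => ?_
    obtain ⟨n, hn⟩ := exists_nat_ge ‖v‖
    exact Set.mem_iUnion.2 ⟨n, mem_closedBall_zero_iff.2 hn, hv⟩
  have hs_fin : ∀ n, volume (s n) < ⊤ := fun n =>
    (measure_mono Set.inter_subset_left).trans_lt measure_closedBall_lt_top
  have hAfin : volume A < ⊤ := by
    obtain ⟨R₁, -, h⟩ := hupp 1 one_pos
    obtain ⟨n₁, hn₁⟩ := exists_nat_ge R₁
    rw [← hUnion, hmono.measure_iUnion]
    refine lt_of_le_of_lt (iSup_le fun n => ?_)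
      (ENNReal.ofReal_lt_top (r := volume.real (s n₁) + 1))
    rw [← ENNReal.ofReal_toReal (hs_fin n).ne]
    refine ENNReal.ofReal_le_ofReal (le_of_tendsto_of_tendsto (hlim n)
      ((hlim n₁).add tendsto_const_nhds) ?_)
    filter_upwards [hlow n, h n₁ hn₁] with T h1 h2
    exact h1.trans h2
  refine ⟨hAfin, ?_⟩
  have hV : Tendsto (fun n => volume.real (s n)) atTop (𝓝 (volume.real A)) := by
    refine (ENNReal.tendsto_toReal ?_).comp ?_
    · exact hAfin.ne
    · rw [← hUnion]
      exact tendsto_measure_iUnion_atTop hmono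
  have hg : Tendsto g atTop (𝓝 (volume.real A)) := by
    rw [Metric.tendsto_nhds]
    intro ε hε
    obtain ⟨R₁, -, h⟩ := hupp (ε / 3) (by positivity)
    obtain ⟨n, hn, hnV⟩ := ((tendsto_natCast_atTop_atTop.eventually (eventually_ge_atTop R₁)).and
      ((Metric.tendsto_nhds.1 hV) (ε / 3) (by positivity))).exists
    filter_upwards [hlow n, h n hn, (Metric.tendsto_nhds.1 (hlim n)) (ε / 3) (by positivity)]
      with T h1 h2 h3
    rw [Real.dist_eq, abs_lt] at hnV h3 ⊢
    constructor <;> linarith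
  have hk : (0 : ℝ) < k := Nat.cast_pos.2 (by omega)
  refine (hg.comp (tendsto_rpow_atTop (show (0 : ℝ) < 1 / k by positivity))).congr' ?_
  filter_upwards [eventually_ge_atTop 0] with N hN
  simp only [Function.comp_apply, g]
  rw [← Real.rpow_natCast _ k, ← Real.rpow_mul hN, one_div_mul_cancel hk.ne', Real.rpow_one,
    ← Real.rpow_natCast _ 2, ← Real.rpow_mul hN, one_div_mul_eq_div]
  norm_num

theorem area_pos (hdeg : f.natDegree ≠ 0) :
    0 < volume {v : Fin 2 → ℝ | |realForm f v| ≤ 1} := by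
  refine (IsOpen.measure_pos volume (isOpen_lt (continuous_realForm f).abs continuous_const)
    ⟨0, ?_⟩).trans_le (measure_mono fun v (hv : |realForm f v| < 1) => hv.le)
  show |realForm f 0| < 1
  rw [← zero_smul ℝ (0 : Fin 2 → ℝ), realForm_smul, zero_pow hdeg, zero_mul, abs_zero]
  exact one_pos

end FA.MahlerArea

end
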