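import Fermat.Agent.MahlerArea.Strip
import Fermat.Agent.Roth.Forms
import Mathlib.Analysis.SpecificLimits.Normed

/-!
# The cusps of a binary form

In a dyadic block a small value puts a point into a thin strip along a real root, so the cusps
beyond `R T` contain `O(T² / R) + o(T²)` lattice points with `|F| ≤ T ^ k`.
-/

set_option autoImplicit false

noncomputable section

open Polynomial Finset Filter

namespace FA.MahlerArea

variable {f : ℤ[X]}

theorem root_isAlgebraic_irrational (hf : f ≠ 0)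
    (hroot : ∀ r : ℚ, (f.map (Int.castRingHom ℚ)).eval r ≠ 0) {z : ℂ}
    (hz : (f.map (Int.castRingHom ℂ)).IsRoot z) (him : z.im = 0) :
    IsAlgebraic ℚ z.re ∧ Irrational z.re := by
  have hzα : z = ((z.re : ℝ) : ℂ) := Complex.ext rfl (by simp [him])
  refine ⟨?_, ?_⟩
  · refine (isAlgebraic_algebraMap_iff (A := ℂ) Complex.ofReal_injective).1 ?_
    rw [Complex.coe_algebraMap, ← hzα]
    refine ⟨f.map (Int.castRingHom ℚ), (Polynomial.map_ne_zero_iff Int.cast_injective).2 hf, ?_⟩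
    rw [aeval_def, eval₂_map, Subsingleton.elim ((algebraMap ℚ ℂ).comp (Int.castRingHom ℚ))
      (Int.castRingHom ℂ), ← eval_map]
    exact hz
  · rintro ⟨r, hr⟩
    refine hroot r ((algebraMap ℚ ℂ).injective ?_)
    have he : algebraMap ℚ ℂ r = z := by
      rw [hzα, ← hr]
      simp
    rw [map_zero, ← eval_map_apply, Polynomial.map_map,
      Subsingleton.elim ((algebraMap ℚ ℂ).comp (Int.castRingHom ℚ)) (Int.castRingHom ℂ), he]
    exact hz

/-- The points of a dyadic block in the cusps. -/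
theorem dyadic_bound (hsep : (f.map (Int.castRingHom ℂ)).Separable)
    (hroot : ∀ r : ℚ, (f.map (Int.castRingHom ℚ)).eval r ≠ 0) (hdeg : 3 ≤ f.natDegree) :
    ∃ C R₀ : ℝ, 0 < C ∧ 1 ≤ R₀ ∧ ∀ T Y : ℝ, 1 ≤ T → R₀ * T ≤ Y → ∀ S : Finset (ℤ × ℤ),
      (∀ p ∈ S, Y < max |(p.1 : ℝ)| |(p.2 : ℝ)| ∧ max |(p.1 : ℝ)| |(p.2 : ℝ)| ≤ 2 * Y ∧
        |(Thue.form f p.1 p.2 : ℝ)| ≤ T ^ f.natDegree) →
      (S.card : ℝ) ≤ C * (T ^ 3 / Y + T) := by
  classical
  set k := f.natDegree with hk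
  have hf : f ≠ 0 := fun h => by rw [hk, h, natDegree_zero] at hdeg; omega
  obtain ⟨K, hK1, hK⟩ := Roth.exists_form_ge hf
  obtain ⟨Cn, hCn, hnear⟩ := Thue.exists_root_near hsep (by omega)
  set g := f.map (Int.castRingHom ℂ)
  have hg0 : g ≠ 0 := (Polynomial.map_ne_zero_iff Int.cast_injective).2 hf
  set A := 2 * Cn * K ^ k with hA
  have hA0 : 0 < A := mul_pos (mul_pos two_pos hCn) (pow_pos (by linarith) k)
  set R := g.roots.toFinset
  have hc : ∀ z : ℂ, ∃ c : ℝ, 0 < c ∧ (z ∈ R → z.im = 0 →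
      ∀ r : ℚ, c ≤ |z.re - r| ^ 2 * (r.den : ℝ) ^ 5) := by
    intro z
    by_cases h : z ∈ R ∧ z.im = 0
    · obtain ⟨h1, h2⟩ := root_isAlgebraic_irrational hf hroot
        ((mem_roots hg0).1 (Multiset.mem_toFinset.1 h.1)) h.2
      obtain ⟨c, hc, hb⟩ := exists_roth_constant h1 h2
      exact ⟨c, hc, fun _ _ => hb⟩
    · exact ⟨1, one_pos, fun h1 h2 => absurd ⟨h1, h2⟩ h⟩
  choose c hc hbad using hc
  set C : ℂ → ℝ := fun z => 36 * A + 2 * (1 + 256 * A ^ 2 / c z) + 3
  have hC : ∀ z, 0 < C z := fun z => by have := hc z; positivity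
  have hR0 : 0 ≤ ∑ z ∈ R, A / |z.im| := sum_nonneg fun z _ => by positivity
  refine ⟨1 + ∑ z ∈ R, C z, 3 + A + ∑ z ∈ R, A / |z.im|,
    add_pos_of_pos_of_nonneg one_pos (sum_nonneg fun z _ => (hC z).le), by linarith,
    fun T Y hT hY S hS => ?_⟩
  have hY3 : (3 + A) * T ≤ Y := le_trans (mul_le_mul_of_nonneg_right (by linarith) (by linarith)) hY
  have hY0 : 0 < Y := lt_of_lt_of_le (by positivity) hY3
  set u := T / Y with hu
  have hu0 : 0 < u := by positivity
  have hu1 : u ≤ 1 := (div_le_one hY0).2 (by nlinarith)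
  have hYu : Y * u = T := by rw [hu]; field_simp
  set w := A * T * u ^ (k - 1) with hw
  have hw0 : 0 < w := by positivity
  have hwY : w ≤ 2 * Y := by
    have : w ≤ A * T :=
      mul_le_of_le_one_right (by positivity) (pow_le_one₀ hu0.le hu1)
    nlinarith
  -- the covering by strips
  have hcover : S ⊆ R.biUnion fun z => S.filter fun p =>
      z.im = 0 ∧ |(p.2 : ℝ)| ≤ 2 * Y ∧ |(p.1 : ℝ) - z.re * p.2| ≤ w := by
    intro p hp
    obtain ⟨hlo, hhi, hF⟩ := hS p hp
    set x : ℝ := (p.1 : ℝ)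
    set y : ℝ := (p.2 : ℝ)
    have hcone : |x| < K * |y| := by
      by_contra h
      have h1 := hK p.1 p.2 (not_lt.1 h)
      have hmx : max |x| |y| = |x| :=
        max_eq_left (le_trans (le_mul_of_one_le_left (abs_nonneg _) hK1) (not_lt.1 h))
      rw [hmx] at hlo
      have h2 : (3 * T) ^ k ≤ |x| ^ k := pow_le_pow_left₀ (by linarith) (by nlinarith) k
      have h3 : (3 : ℝ) ≤ 3 ^ k := le_self_pow₀ (by norm_num) (by omega)
      rw [mul_pow] at h2
      have hT0 : (0 : ℝ) < T ^ k := pow_pos (by linarith) k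
      nlinarith
    have hyY : Y ≤ K * |y| :=
      hlo.le.trans (max_le hcone.le (le_mul_of_one_le_left (abs_nonneg _) hK1))
    have hy0 : 0 < |y| := by
      by_contra h
      nlinarith [abs_nonneg y]
    have hyz : p.2 ≠ 0 := by intro h; simp [y, h] at hy0
    have hy2 : |y| ≤ 2 * Y := (le_max_right _ _).trans hhi
    obtain ⟨z, hz, hzle⟩ := hnear ((p.1 : ℂ) / p.2)
    have hdist : ‖((p.1 : ℂ) / p.2) - z‖ ≤ Cn * K ^ k * u ^ k := by
      refine hzle.trans ?_
      rw [mul_assoc]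
      refine mul_le_mul_of_nonneg_left ?_ hCn.le
      have h := congrArg norm (Thue.form_eq_mul (K := ℂ) f p.1 p.2 hyz)
      rw [norm_mul, norm_pow, Complex.norm_intCast, Complex.norm_intCast] at h
      have h1 : Y ^ k ≤ K ^ k * |y| ^ k := by
        rw [← mul_pow]; exact pow_le_pow_left₀ hY0.le hyY k
      have h2 : ‖g.eval ((p.1 : ℂ) / p.2)‖ * Y ^ k ≤ K ^ k * T ^ k := by
        calc ‖g.eval ((p.1 : ℂ) / p.2)‖ * Y ^ k
            ≤ ‖g.eval ((p.1 : ℂ) / p.2)‖ * (K ^ k * |y| ^ k) :=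
              mul_le_mul_of_nonneg_left h1 (norm_nonneg _)
          _ = K ^ k * |(Thue.form f p.1 p.2 : ℝ)| := by rw [h]; ring
          _ ≤ _ := mul_le_mul_of_nonneg_left hF (by positivity)
      rwa [hu, div_pow, mul_div_assoc', le_div_iff₀ (pow_pos hY0 k)]
    have hzR : z ∈ R := Multiset.mem_toFinset.2 ((mem_roots hg0).2 hz)
    refine mem_biUnion.2 ⟨z, hzR, mem_filter.2 ⟨hp, ?_⟩⟩
    have hre : ((p.1 : ℂ) / p.2) = ((x / y : ℝ) : ℂ) := by push_cast [x, y]; rfl
    have him : z.im = 0 := by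
      by_contra him
      have h1 : |z.im| ≤ ‖((p.1 : ℂ) / p.2) - z‖ := by
        refine le_trans (le_of_eq ?_) (Complex.abs_im_le_norm _)
        rw [hre]
        simp
      have h2 : u ^ k ≤ u := pow_le_of_le_one hu0.le hu1 (by omega)
      have h3 : A / |z.im| ≤ ∑ z ∈ R, A / |z.im| :=
        single_le_sum (f := fun z : ℂ => A / |z.im|) (fun _ _ => by positivity) hzR
      have h4 : A / |z.im| * T < Y := by
        refine lt_of_lt_of_le ?_ hY
        exact mul_lt_mul_of_pos_right (by linarith) (by linarith)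
      rw [div_mul_eq_mul_div, div_lt_iff₀ (abs_pos.2 him)] at h4
      have h5 : |z.im| ≤ A * u := by
        have h6 := mul_le_mul_of_nonneg_left h2 (show 0 ≤ Cn * K ^ k by positivity)
        nlinarith
      have h7 := mul_le_mul_of_nonneg_left h5 hY0.le
      nlinarith
    refine ⟨him, hy2, ?_⟩
    have hzα : z = ((z.re : ℝ) : ℂ) := Complex.ext rfl (by simp [him])
    rw [hre, hzα, ← Complex.ofReal_sub, Complex.norm_real, Real.norm_eq_abs] at hdist
    have hyne : y ≠ 0 := abs_pos.1 hy0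
    calc |x - z.re * y| = |x / y - z.re| * |y| := by
          rw [← abs_mul, sub_mul, div_mul_cancel₀ _ hyne]
      _ ≤ Cn * K ^ k * u ^ k * (2 * Y) := mul_le_mul hdist hy2 (abs_nonneg _) (by positivity)
      _ = w := by
          obtain ⟨j, hj⟩ : ∃ j, k = j + 1 := ⟨k - 1, by omega⟩
          rw [hw, hA, ← hYu, hj, Nat.add_sub_cancel, pow_succ]
          ring
  have hsum : ∀ z ∈ R, ((S.filter fun p => z.im = 0 ∧ |(p.2 : ℝ)| ≤ 2 * Y ∧
      |(p.1 : ℝ) - z.re * p.2| ≤ w).card : ℝ) ≤ C z * (T ^ 3 / Y + T) := by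
    intro z hz
    have hpos : 0 ≤ C z * (T ^ 3 / Y + T) := by have := hC z; positivity
    by_cases him : z.im = 0
    swap
    · simp [him, hpos]
    obtain ⟨m, hm0, hm5, hcard⟩ := strip_card (hc z) (hbad z hz him) hw0 hwY
      (S.filter fun p => z.im = 0 ∧ |(p.2 : ℝ)| ≤ 2 * Y ∧ |(p.1 : ℝ) - z.re * p.2| ≤ w)
      (fun p hp => ⟨(mem_filter.1 hp).2.2.1, (mem_filter.1 hp).2.2.2⟩)
    refine hcard.trans ?_
    obtain ⟨j, hj⟩ : ∃ j, k - 1 = j + 2 := ⟨k - 3, by omega⟩
    have e1 : 2 * Y * w ≤ 2 * A * (T ^ 3 / Y) := by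
      calc 2 * Y * w = 2 * A * T ^ 2 * (u * u ^ j) := by
            rw [hw, hj, ← hYu, pow_add]; ring
        _ ≤ 2 * A * T ^ 2 * (u * 1) := by
            gcongr
            exact pow_le_one₀ hu0.le hu1
        _ = 2 * A * (T ^ 3 / Y) := by rw [hu]; ring
    have e2 : (2 * Y) ^ 3 * w ^ 2 ≤ 8 * A ^ 2 * T ^ 5 := by
      calc (2 * Y) ^ 3 * w ^ 2 = 8 * A ^ 2 * T ^ 5 * (u * (u ^ j) ^ 2) := by
            rw [hw, hj, ← hYu, pow_add]; ring
        _ ≤ 8 * A ^ 2 * T ^ 5 * 1 := by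
            gcongr
            exact mul_le_one₀ hu1 (by positivity)
              (pow_le_one₀ (by positivity) (pow_le_one₀ hu0.le hu1))
        _ = _ := mul_one _
    set B := 1 + 256 * A ^ 2 / c z with hB
    have hB1 : 1 ≤ B := by
      rw [hB]
      linarith [show 0 ≤ 256 * A ^ 2 / c z by have := hc z; positivity]
    have hmT : m ≤ B * T := by
      refine le_of_pow_le_pow_left₀ (n := 5) (by norm_num) (by positivity) ?_
      have h1 : m ^ 5 ≤ 256 * A ^ 2 / c z * T ^ 5 := by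
        rw [div_mul_eq_mul_div, le_div_iff₀ (hc z)]
        linarith
      refine h1.trans ?_
      rw [mul_pow B T 5]
      have h2 : 256 * A ^ 2 / c z ≤ B := by rw [hB]; linarith
      exact mul_le_mul_of_nonneg_right (h2.trans (le_self_pow₀ hB1 (n := 5) (by norm_num)))
        (by positivity)
    have hT3 : 0 ≤ T ^ 3 / Y := by positivity
    simp only [C, ← hB]
    nlinarith
  calc (S.card : ℝ) ≤ ∑ z ∈ R, ((S.filter fun p => z.im = 0 ∧ |(p.2 : ℝ)| ≤ 2 * Y ∧
        |(p.1 : ℝ) - z.re * p.2| ≤ w).card : ℝ) := by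
        exact_mod_cast (card_le_card hcover).trans card_biUnion_le
    _ ≤ ∑ z ∈ R, C z * (T ^ 3 / Y + T) := sum_le_sum hsum
    _ ≤ _ := by
        rw [← sum_mul]
        exact mul_le_mul_of_nonneg_right (le_add_of_nonneg_left zero_le_one) (by positivity)

/-- Far out there are `ε T²` points at most. -/
theorem cusp_small (hsep : (f.map (Int.castRingHom ℂ)).Separable)
    (hroot : ∀ r : ℚ, (f.map (Int.castRingHom ℚ)).eval r ≠ 0) (hdeg : 3 ≤ f.natDegree)
    {ε : ℝ} (hε : 0 < ε) :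
    ∃ R : ℝ, 1 ≤ R ∧ ∀ᶠ T : ℝ in atTop, ∀ S : Finset (ℤ × ℤ),
      (∀ p ∈ S, R * T < max |(p.1 : ℝ)| |(p.2 : ℝ)| ∧
        |(Thue.form f p.1 p.2 : ℝ)| ≤ T ^ f.natDegree) → (S.card : ℝ) ≤ ε * T ^ 2 := by
  classical
  set k := f.natDegree
  obtain ⟨C, R₀, hC, hR₀, hdy⟩ := dyadic_bound hsep hroot hdeg
  have hfin := Roth.finite_small_values hsep hroot (C := 1) (e := 1 / 2)
    (by have : (3 : ℝ) ≤ k := Nat.ofNat_le_cast.2 hdeg; linarith) hdeg
  obtain ⟨B, hB⟩ := (hfin.image fun p : ℤ × ℤ => max |(p.1 : ℝ)| |(p.2 : ℝ)|).bddAbove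
  set η := ε / (4 * C) with hη
  have hη0 : 0 < η := by positivity
  refine ⟨R₀ + 4 * C / ε, le_add_of_le_of_nonneg hR₀ (by positivity), ?_⟩
  have hev : ∀ᶠ T : ℝ in atTop, T ^ (2 * k) ≤ 2 ^ ⌊η * T⌋₊ := by
    have h1 : Tendsto (fun T : ℝ => ⌊η * T⌋₊) atTop atTop :=
      tendsto_nat_floor_atTop.comp (tendsto_id.const_mul_atTop hη0)
    have h2 := ((tendsto_pow_const_div_const_pow_of_one_lt (2 * k) (one_lt_two (α := ℝ))).comp h1)
      |>.eventually (eventually_le_nhds (show (0 : ℝ) < (η / 2) ^ (2 * k) by positivity))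
    filter_upwards [h2, h1.eventually (eventually_ge_atTop 1), eventually_ge_atTop 0]
      with T h h1 hT
    simp only [Function.comp_apply] at h
    rw [div_le_iff₀ (by positivity)] at h
    set n := ⌊η * T⌋₊
    have hn : (1 : ℝ) ≤ n := Nat.one_le_cast.2 h1
    have h3 : η * T / 2 ≤ n := by
      have := Nat.lt_floor_add_one (η * T)
      linarith
    have h4 : (η / 2) ^ (2 * k) * T ^ (2 * k) ≤ (η / 2) ^ (2 * k) * (2 : ℝ) ^ n := by
      rw [← mul_pow]
      exact ((pow_le_pow_left₀ (by positivity) (le_of_eq_of_le (by ring) h3) _).trans h)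
    exact le_of_mul_le_mul_left h4 (by positivity)
  filter_upwards [hev, eventually_ge_atTop (max 1 B)] with T hpow hTB S hS
  have hT : 1 ≤ T := (le_max_left _ _).trans hTB
  set R := R₀ + 4 * C / ε with hR
  have hR1 : 1 ≤ R := le_add_of_le_of_nonneg hR₀ (by positivity)
  set J := ⌊η * T⌋₊
  set N : ℤ × ℤ → ℝ := fun p => max |(p.1 : ℝ)| |(p.2 : ℝ)| with hN
  have hcover : S ⊆ (range J).biUnion fun j => S.filter fun p =>
      R * T * 2 ^ j < N p ∧ N p ≤ 2 * (R * T * 2 ^ j) := by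
    intro p hp
    obtain ⟨h1, h2⟩ := hS p hp
    have hmax : N p ≤ R * T * 2 ^ J := by
      have h3 : N p ≤ T ^ (2 * k) := by
        by_cases hpB : |(Thue.form f p.1 p.2 : ℝ)| ≤ 1 * N p ^ (1 / 2 : ℝ)
        · refine (hB ⟨p, hpB, rfl⟩).trans (((le_max_right _ _).trans hTB).trans ?_)
          exact le_self_pow₀ hT (by omega)
        · rw [one_mul, ← Real.sqrt_eq_rpow] at hpB
          have h4 : Real.sqrt (N p) ≤ T ^ k := (not_le.1 hpB).le.trans h2
          rw [Real.sqrt_le_left (by positivity), ← pow_mul, mul_comm] at h4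
          exact h4
      refine h3.trans (hpow.trans (le_mul_of_one_le_left (by positivity) ?_))
      exact one_le_mul_of_one_le_of_one_le hR1 hT
    have hex : ∃ j, N p ≤ R * T * 2 ^ j := ⟨J, hmax⟩
    have hj := Nat.find_spec hex
    have hjJ := Nat.find_min' hex hmax
    obtain ⟨i, hi⟩ : ∃ i, Nat.find hex = i + 1 := by
      refine Nat.exists_eq_succ_of_ne_zero fun h => ?_
      rw [h, pow_zero, mul_one] at hj
      exact absurd hj (not_le.2 h1)
    have hlt : R * T * 2 ^ i < N p := not_le.1 (Nat.find_min hex (by omega : i < Nat.find hex))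
    rw [hi] at hj hjJ
    exact mem_biUnion.2 ⟨i, mem_range.2 (by omega), mem_filter.2 ⟨hp, hlt,
      hj.trans_eq (by ring)⟩⟩
  have hterm : ∀ j ∈ range J, ((S.filter fun p =>
      R * T * 2 ^ j < N p ∧ N p ≤ 2 * (R * T * 2 ^ j)).card : ℝ) ≤
      C * (T ^ 2 / R * (1 / 2) ^ j + T) := by
    intro j _
    refine (hdy T (R * T * 2 ^ j) hT ?_ _ fun p hp => ⟨(mem_filter.1 hp).2.1,
      (mem_filter.1 hp).2.2, (hS p (mem_filter.1 hp).1).2⟩).trans_eq ?_
    · refine (mul_le_mul_of_nonneg_right (le_add_of_nonneg_right (by positivity) : R₀ ≤ R)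
        (by linarith)).trans (le_mul_of_one_le_right (by positivity) (one_le_pow₀ (by norm_num)))
    · congr 2
      rw [one_div, inv_pow]
      field_simp
  have hgeom : ∑ j ∈ range J, ((1 : ℝ) / 2) ^ j ≤ 2 := sum_geometric_two_le J
  have hJ : (J : ℝ) ≤ η * T := Nat.floor_le (by positivity)
  have hCR : 2 * C / R ≤ ε / 2 := by
    rw [div_le_iff₀ (by linarith), hR]
    have : ε / 2 * (4 * C / ε) = 2 * C := by field_simp; ring
    nlinarith
  calc (S.card : ℝ) ≤ ∑ j ∈ range J, ((S.filter fun p =>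
        R * T * 2 ^ j < N p ∧ N p ≤ 2 * (R * T * 2 ^ j)).card : ℝ) := by
        exact_mod_cast (card_le_card hcover).trans card_biUnion_le
    _ ≤ ∑ j ∈ range J, C * (T ^ 2 / R * (1 / 2) ^ j + T) := sum_le_sum hterm
    _ = C * T ^ 2 / R * ∑ j ∈ range J, ((1 : ℝ) / 2) ^ j + C * J * T := by
        rw [mul_sum, ← Finset.mul_sum, sum_add_distrib, mul_add, Finset.mul_sum, sum_const,
          card_range, nsmul_eq_mul]
        congr 1
        · exact sum_congr rfl fun j _ => by ring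
        · ring
    _ ≤ C * T ^ 2 / R * 2 + C * (η * T) * T := by
        gcongr
    _ ≤ ε * T ^ 2 := by
        have e1 : C * T ^ 2 / R * 2 = 2 * C / R * T ^ 2 := by ring
        have e2 : C * (η * T) * T = ε / 4 * T ^ 2 := by rw [hη]; field_simp
        rw [e1, e2]
        nlinarith [mul_le_mul_of_nonneg_right hCR (sq_nonneg T)]

end FA.MahlerArea

end
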