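import Fermat.Agent.Roth.Finite
import Mathlib.NumberTheory.DiophantineApproximation.Basic

/-!
# Lattice points in a thin strip along an algebraic direction

The lines `q x - p y = d`, `p / q` a Dirichlet approximation, cover the points of the strip, and
Roth's theorem bounds the number of points on each.
-/

set_option autoImplicit false

noncomputable section

open Finset

namespace FA.MahlerArea

/-- Roth's theorem with exponent `5 / 2`, squared. -/
theorem exists_roth_constant {α : ℝ} (halg : IsAlgebraic ℚ α) (hirr : Irrational α) :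
    ∃ c : ℝ, 0 < c ∧ ∀ r : ℚ, c ≤ |α - r| ^ 2 * (r.den : ℝ) ^ 5 := by
  classical
  have hfin := Roth.finite_approximations halg (κ := 5 / 2) (by norm_num)
  have hpos : ∀ r : ℚ, 0 < |α - r| ^ 2 * (r.den : ℝ) ^ 5 := fun r =>
    mul_pos (pow_pos (abs_pos.2 fun h => hirr ⟨r, (sub_eq_zero.1 h).symm⟩) 2)
      (pow_pos (Nat.cast_pos.2 r.pos) 5)
  obtain ⟨r₀, -, hmin⟩ := (insert 0 hfin.toFinset).exists_min_image
    (fun r : ℚ => |α - r| ^ 2 * (r.den : ℝ) ^ 5) (insert_nonempty _ _)
  refine ⟨min 1 (|α - r₀| ^ 2 * (r₀.den : ℝ) ^ 5), lt_min one_pos (hpos r₀), fun r => ?_⟩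
  by_cases hr : r ∈ hfin.toFinset
  · exact (min_le_right _ _).trans (hmin r (mem_insert_of_mem hr))
  refine (min_le_left _ _).trans ?_
  rw [Set.Finite.mem_toFinset, Set.mem_ofPred_eq, not_lt] at hr
  have hd : (0 : ℝ) < r.den := Nat.cast_pos.2 r.pos
  have h := pow_le_pow_left₀ (Real.rpow_nonneg hd.le _) hr 2
  rw [← Real.rpow_natCast _ 2, ← Real.rpow_mul hd.le, show (-(5 / 2 : ℝ)) * ((2 : ℕ) : ℝ) =
    -((5 : ℕ) : ℝ) by norm_num, Real.rpow_neg hd.le, Real.rpow_natCast,
    inv_le_iff_one_le_mul₀ (pow_pos hd 5)] at h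
  exact h

/-- The points of a strip `|x - α y| ≤ w`, `|y| ≤ Y`. -/
theorem strip_card {α c : ℝ} (hc : 0 < c) (hbad : ∀ r : ℚ, c ≤ |α - r| ^ 2 * (r.den : ℝ) ^ 5)
    {Y w : ℝ} (hw : 0 < w) (hwY : w ≤ Y) (S : Finset (ℤ × ℤ))
    (hS : ∀ p ∈ S, |(p.2 : ℝ)| ≤ Y ∧ |(p.1 : ℝ) - α * p.2| ≤ w) :
    ∃ m : ℝ, 0 ≤ m ∧ m ^ 5 * c ≤ 32 * (Y ^ 3 * w ^ 2) ∧
      (S.card : ℝ) ≤ 18 * (Y * w) + 2 * m + 3 := by
  classical
  have hY : 0 < Y := hw.trans_le hwY
  set s := Real.sqrt (Y * w)
  have hs : 0 < s := Real.sqrt_pos.2 (mul_pos hY hw)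
  have hs2 : s * s = Y * w := Real.mul_self_sqrt (mul_pos hY hw).le
  have hws : w ≤ s := by
    refine le_of_not_gt fun h => ?_
    nlinarith
  set n := ⌊s / w⌋₊
  have hn : 0 < n := Nat.floor_pos.2 ((one_le_div hw).2 hws)
  obtain ⟨r, hr, hden⟩ := Real.exists_rat_abs_sub_le_and_den_le α hn
  set q : ℝ := (r.den : ℝ)
  have hq : 0 < q := Nat.cast_pos.2 r.pos
  have hqs : q * w ≤ s := by
    rw [← le_div_iff₀ hw]
    exact (Nat.cast_le.2 hden).trans (Nat.floor_le (by positivity))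
  set δ := q * |α - r|
  have hrne : 0 < |α - r| := by
    by_contra h
    have := hbad r
    rw [(not_lt.1 h).antisymm (abs_nonneg _)] at this
    simp at this
    linarith
  have hδ : 0 < δ := mul_pos hq hrne
  have hδY : δ * Y ≤ s := by
    have h1 : δ * ((n : ℝ) + 1) ≤ 1 := by
      rw [le_div_iff₀ (by positivity)] at hr
      linarith [show δ * ((n : ℝ) + 1) = |α - r| * (((n : ℝ) + 1) * r.den) by
        simp only [δ, q]; ring]
    have h2 : s / w ≤ (n : ℝ) + 1 := (Nat.lt_floor_add_one _).le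
    have h3 : δ * (s / w) ≤ 1 := (mul_le_mul_of_nonneg_left h2 hδ.le).trans h1
    rw [mul_div_assoc', div_le_one hw] at h3
    nlinarith
  set D := q * w + δ * Y
  set m := min (2 * Y / q) (2 * w / δ)
  have hm : 0 ≤ m := le_min (by positivity) (by positivity)
  have hDm : D * m ≤ 4 * (Y * w) := by
    have e1 : q * w * m ≤ q * w * (2 * Y / q) :=
      mul_le_mul_of_nonneg_left (min_le_left _ _) (by positivity)
    have e2 : δ * Y * m ≤ δ * Y * (2 * w / δ) :=
      mul_le_mul_of_nonneg_left (min_le_right _ _) (by positivity)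
    rw [show q * w * (2 * Y / q) = 2 * (Y * w) by field_simp] at e1
    rw [show δ * Y * (2 * w / δ) = 2 * (Y * w) by field_simp] at e2
    linarith [show D * m = q * w * m + δ * Y * m by simp only [D]; ring]
  refine ⟨m, hm, ?_, ?_⟩
  · have h1 : m ^ 5 ≤ (2 * Y / q) ^ 3 * (2 * w / δ) ^ 2 := by
      rw [show m ^ 5 = m ^ 3 * m ^ 2 by ring]
      exact mul_le_mul (pow_le_pow_left₀ hm (min_le_left _ _) 3)
        (pow_le_pow_left₀ hm (min_le_right _ _) 2) (by positivity) (by positivity)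
    calc m ^ 5 * c ≤ (2 * Y / q) ^ 3 * (2 * w / δ) ^ 2 * (|α - r| ^ 2 * q ^ 5) :=
          mul_le_mul h1 (hbad r) hc.le (by positivity)
      _ = 32 * (Y ^ 3 * w ^ 2) := by
          simp only [δ]
          field_simp
          ring
  set d : ℤ × ℤ → ℤ := fun p => (r.den : ℤ) * p.1 - r.num * p.2
  have hnum : q * r = r.num := by
    rw [Rat.cast_def, mul_div_cancel₀ _ hq.ne']
  have himg : ((S.image d).card : ℝ) ≤ 2 * D + 1 := by
    have hD : 0 ≤ D := by positivity
    have hsub : S.image d ⊆ Icc (-⌊D⌋) ⌊D⌋ := by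
      intro k hk
      obtain ⟨p, hp, rfl⟩ := mem_image.1 hk
      have h : |((d p : ℤ) : ℝ)| ≤ D := by
        have e : ((d p : ℤ) : ℝ) = q * ((p.1 : ℝ) - α * p.2) + q * (α - r) * p.2 := by
          simp only [d, q]
          push_cast
          linear_combination (p.2 : ℝ) * hnum
        rw [e]
        refine (abs_add_le _ _).trans (add_le_add ?_ ?_)
        · rw [abs_mul, abs_of_pos hq]
          exact mul_le_mul_of_nonneg_left (hS p hp).2 hq.le
        · rw [abs_mul, abs_mul, abs_of_pos hq]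
          exact mul_le_mul_of_nonneg_left (hS p hp).1 hδ.le
      rw [abs_le] at h
      rw [mem_Icc, neg_le, Int.le_floor, Int.le_floor]
      push_cast
      exact ⟨by linarith, h.2⟩
    refine (Nat.cast_le.2 (card_le_card hsub)).trans ?_
    rw [Int.card_Icc, ← Int.cast_natCast, Int.toNat_of_nonneg
      (by have := Int.floor_nonneg.2 hD; omega)]
    push_cast
    linarith [Int.floor_le D]
  have hfib : ∀ k ∈ S.image d, (S.filter fun p => d p = k).card ≤ (2 * ⌊m⌋ + 1).toNat := by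
    intro k hk
    obtain ⟨p₀, hp₀, rfl⟩ := mem_image.1 hk
    have hdvd : ∀ p ∈ S.filter (fun p => d p = d p₀), (r.den : ℤ) ∣ p.2 - p₀.2 := fun p hp => by
      have hcop : IsCoprime (r.den : ℤ) r.num := by
        rw [Int.isCoprime_iff_gcd_eq_one, Int.gcd_comm]
        exact r.reduced
      refine hcop.dvd_of_dvd_mul_left ⟨p.1 - p₀.1, ?_⟩
      have h := (mem_filter.1 hp).2
      simp only [d] at h
      linarith
    refine (card_le_card_of_injOn (fun p => (p.2 - p₀.2) / (r.den : ℤ))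
      (t := Icc (-⌊m⌋) ⌊m⌋) ?_ ?_).trans (by rw [Int.card_Icc]; omega)
    · intro p hp
      obtain ⟨t, ht⟩ := hdvd p hp
      obtain ⟨hpS, hd⟩ := mem_filter.1 hp
      have hx : p.1 - p₀.1 = r.num * t := by
        refine mul_left_cancel₀ (Int.natCast_ne_zero.2 r.den_nz) ?_
        simp only [d] at hd
        linear_combination hd + r.num * ht
      have ht' : (p.2 : ℝ) - p₀.2 = q * t := by simp only [q]; exact_mod_cast ht
      have hx' : (p.1 : ℝ) - p₀.1 = r.num * t := by exact_mod_cast hx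
      have h1 : |(t : ℝ)| ≤ m := by
        refine le_min ?_ ?_
        · rw [le_div_iff₀ hq, mul_comm, ← abs_of_pos hq, ← abs_mul, ← ht']
          refine (abs_sub _ _).trans ?_
          linarith [(hS p hpS).1, (hS p₀ hp₀).1]
        · rw [le_div_iff₀ hδ, mul_comm]
          have e : δ * |(t : ℝ)| = |((p.1 : ℝ) - α * p.2) - ((p₀.1 : ℝ) - α * p₀.2)| := by
            rw [show ((p.1 : ℝ) - α * p.2) - ((p₀.1 : ℝ) - α * p₀.2) =
              -(q * (α - r) * t) by linear_combination hx' - α * ht' - (t : ℝ) * hnum,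
              abs_neg, abs_mul, abs_mul, abs_of_pos hq]
          rw [e]
          refine (abs_sub _ _).trans ?_
          linarith [(hS p hpS).2, (hS p₀ hp₀).2]
      rw [abs_le] at h1
      simp only [coe_Icc, Set.mem_Icc, ht, Int.mul_ediv_cancel_left _
        (Int.natCast_ne_zero.2 r.den_nz), neg_le, Int.le_floor]
      push_cast
      exact ⟨by linarith, h1.2⟩
    · intro p hp p' hp' h
      obtain ⟨t, ht⟩ := hdvd p hp
      obtain ⟨t', ht'⟩ := hdvd p' hp'
      simp only [ht, ht', Int.mul_ediv_cancel_left _ (Int.natCast_ne_zero.2 r.den_nz)] at h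
      have h2 : p.2 = p'.2 := by rw [h] at ht; linarith
      have h1 := ((mem_filter.1 hp).2).trans (mem_filter.1 hp').2.symm
      simp only [d, h2, sub_left_inj] at h1
      exact Prod.ext (mul_left_cancel₀ (Int.natCast_ne_zero.2 r.den_nz) h1) h2
  have hcard := card_le_mul_card_image S _ hfib
  have hfib' : (((2 * ⌊m⌋ + 1).toNat : ℕ) : ℝ) ≤ 2 * m + 1 := by
    rw [← Int.cast_natCast, Int.toNat_of_nonneg (by have := Int.floor_nonneg.2 hm; omega)]
    push_cast
    linarith [Int.floor_le m]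
  have hD2 : D ≤ Y * w + 1 := by
    have : 2 * s ≤ s * s + 1 := by nlinarith [sq_nonneg (s - 1)]
    linarith
  calc (S.card : ℝ) ≤ (((2 * ⌊m⌋ + 1).toNat : ℕ) : ℝ) * ((S.image d).card : ℝ) := by
        exact_mod_cast hcard
    _ ≤ (2 * m + 1) * (2 * D + 1) := mul_le_mul hfib' himg (Nat.cast_nonneg _) (by linarith)
    _ = 4 * (D * m) + 2 * D + 2 * m + 1 := by ring
    _ ≤ _ := by linarith

end FA.MahlerArea

end
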